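import Mathlib

/-!
# Covering bounds (upper box dimension)

`CoverBound S d` : for every `M ≥ 1` the set `S` is covered by `O(M ^ d)` closed balls of
radius `1 / M`.  Stable under subsets, finite unions and Lipschitz images; holds for the faces of
the unit cube of `κ → ℝ` with `d = card κ - 1`.
-/

set_option autoImplicit false

open Set Filter Topology Bornology

namespace Fermat.Agent.H67

/-- `S` can be covered, for every `M ≥ 1`, by at most `C * M ^ d` closed balls of radius
`1 / M`. -/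
def CoverBound {E : Type*} [PseudoMetricSpace E] (S : Set E) (d : ℕ) : Prop :=
  ∃ C : ℝ, ∀ M : ℕ, 0 < M → ∃ T : Finset E, (T.card : ℝ) ≤ C * (M : ℝ) ^ d ∧
    S ⊆ ⋃ x ∈ T, Metric.closedBall x (1 / (M : ℝ))

section Basic

variable {E F : Type*} [PseudoMetricSpace E] [PseudoMetricSpace F]

theorem CoverBound.mono {S S' : Set E} {d : ℕ} (h : CoverBound S d) (hS : S' ⊆ S) :
    CoverBound S' d := by
  obtain ⟨C, hC⟩ := h
  refine ⟨C, fun M hM => ?_⟩
  obtain ⟨T, hT, hcov⟩ := hC M hM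
  exact ⟨T, hT, hS.trans hcov⟩

theorem coverBound_empty (d : ℕ) : CoverBound (∅ : Set E) d :=
  ⟨0, fun _ _ => ⟨∅, by simp, by simp⟩⟩

theorem CoverBound.union {S₁ S₂ : Set E} {d : ℕ} (h₁ : CoverBound S₁ d) (h₂ : CoverBound S₂ d) :
    CoverBound (S₁ ∪ S₂) d := by
  classical
  obtain ⟨C₁, hC₁⟩ := h₁
  obtain ⟨C₂, hC₂⟩ := h₂
  refine ⟨C₁ + C₂, fun M hM => ?_⟩
  obtain ⟨T₁, hT₁, hcov₁⟩ := hC₁ M hM
  obtain ⟨T₂, hT₂, hcov₂⟩ := hC₂ M hM
  refine ⟨T₁ ∪ T₂, ?_, ?_⟩
  · calc ((T₁ ∪ T₂).card : ℝ) ≤ (T₁.card : ℝ) + T₂.card := by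
          exact_mod_cast Finset.card_union_le T₁ T₂
      _ ≤ C₁ * (M : ℝ) ^ d + C₂ * (M : ℝ) ^ d := add_le_add hT₁ hT₂
      _ = (C₁ + C₂) * (M : ℝ) ^ d := by ring
  · rintro x (hx | hx)
    · have := hcov₁ hx
      simp only [Set.mem_iUnion] at this ⊢
      obtain ⟨p, hp, hd⟩ := this
      exact ⟨p, Finset.mem_union_left _ hp, hd⟩
    · have := hcov₂ hx
      simp only [Set.mem_iUnion] at this ⊢
      obtain ⟨p, hp, hd⟩ := this
      exact ⟨p, Finset.mem_union_right _ hp, hd⟩

/-- finite unions (indexed by a finset) -/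
theorem CoverBound.biUnion {α : Type*} (s : Finset α) (S : α → Set E) (d : ℕ)
    (h : ∀ a ∈ s, CoverBound (S a) d) : CoverBound (⋃ a ∈ s, S a) d := by
  classical
  induction s using Finset.induction_on with
  | empty => simpa using coverBound_empty (E := E) d
  | insert a s ha ih =>
    have : (⋃ b ∈ insert a s, S b) = S a ∪ ⋃ b ∈ s, S b := by
      ext x; simp
    rw [this]
    exact (h a (Finset.mem_insert_self a s)).union
      (ih (fun b hb => h b (Finset.mem_insert_of_mem hb)))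

/-- finite unions (indexed by a finite type) -/
theorem CoverBound.iUnion {α : Type*} [Finite α] (S : α → Set E) (d : ℕ)
    (h : ∀ a, CoverBound (S a) d) : CoverBound (⋃ a, S a) d := by
  classical
  have := Fintype.ofFinite α
  have := CoverBound.biUnion (Finset.univ : Finset α) S d (fun a _ => h a)
  simpa using this

/-- the centres of the balls can be taken in `S` -/
theorem CoverBound.exists_centered {S : Set E} {d : ℕ} (h : CoverBound S d) :
    ∃ C : ℝ, ∀ M : ℕ, 0 < M → ∃ T : Finset E, (↑T : Set E) ⊆ S ∧ (T.card : ℝ) ≤ C * (M : ℝ) ^ d ∧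
      S ⊆ ⋃ x ∈ T, Metric.closedBall x (1 / (M : ℝ)) := by
  classical
  obtain ⟨C, hC⟩ := h
  refine ⟨C * 2 ^ d, fun M hM => ?_⟩
  have hM' : (0 : ℝ) < M := by exact_mod_cast hM
  obtain ⟨T, hT, hcov⟩ := hC (2 * M) (by omega)
  -- choose a point of `S` in each ball meeting `S`
  let g : E → E := fun x =>
    if hx : (Metric.closedBall x (1 / ((2 * M : ℕ) : ℝ)) ∩ S).Nonempty then hx.choose else x
  have hg : ∀ x, (Metric.closedBall x (1 / ((2 * M : ℕ) : ℝ)) ∩ S).Nonempty →
      g x ∈ Metric.closedBall x (1 / ((2 * M : ℕ) : ℝ)) ∩ S := by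
    intro x hx
    simp only [g, dif_pos hx]
    exact hx.choose_spec
  refine ⟨(T.filter fun x => (Metric.closedBall x (1 / ((2 * M : ℕ) : ℝ)) ∩ S).Nonempty).image g,
    ?_, ?_, ?_⟩
  · intro y hy
    rw [Finset.coe_image] at hy
    obtain ⟨x, hx, rfl⟩ := hy
    rw [Finset.mem_coe, Finset.mem_filter] at hx
    exact (hg x hx.2).2
  · calc (((T.filter fun x => (Metric.closedBall x (1 / ((2 * M : ℕ) : ℝ)) ∩ S).Nonempty).image
          g).card : ℝ) ≤ (T.card : ℝ) := by
          exact_mod_cast Finset.card_image_le.trans (Finset.card_filter_le _ _)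
      _ ≤ C * ((2 * M : ℕ) : ℝ) ^ d := hT
      _ = C * 2 ^ d * (M : ℝ) ^ d := by push_cast; ring
  · intro s hs
    have := hcov hs
    simp only [Set.mem_iUnion] at this ⊢
    obtain ⟨x, hxT, hsx⟩ := this
    have hne : (Metric.closedBall x (1 / ((2 * M : ℕ) : ℝ)) ∩ S).Nonempty := ⟨s, hsx, hs⟩
    refine ⟨g x, Finset.mem_image_of_mem g (Finset.mem_filter.mpr ⟨hxT, hne⟩), ?_⟩
    rw [Metric.mem_closedBall] at hsx ⊢
    have h2 : dist (g x) x ≤ 1 / ((2 * M : ℕ) : ℝ) := Metric.mem_closedBall.mp (hg x hne).1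
    calc dist s (g x) ≤ dist s x + dist x (g x) := dist_triangle _ _ _
      _ ≤ 1 / ((2 * M : ℕ) : ℝ) + 1 / ((2 * M : ℕ) : ℝ) := by
          rw [dist_comm x (g x)]; exact add_le_add hsx h2
      _ = 1 / (M : ℝ) := by push_cast; field_simp; ring

/-- image under a map which is Lipschitz on the set -/
theorem CoverBound.image {S : Set E} {d : ℕ} (h : CoverBound S d) {f : E → F}
    {K : NNReal} (hf : LipschitzOnWith K f S) : CoverBound (f '' S) d := by
  classical
  obtain ⟨C, hC⟩ := h.exists_centered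
  set k : ℕ := ⌈(K : ℝ)⌉₊ + 1 with hk
  have hk1 : (K : ℝ) ≤ k := by
    rw [hk]; push_cast
    exact (Nat.le_ceil _).trans (by linarith)
  have hk0 : (0 : ℝ) < k := by rw [hk]; positivity
  refine ⟨C * (k : ℝ) ^ d, fun M hM => ?_⟩
  have hM' : (0 : ℝ) < M := by exact_mod_cast hM
  obtain ⟨T, hTS, hT, hcov⟩ := hC (M * k) (Nat.mul_pos hM (by omega))
  refine ⟨T.image f, ?_, ?_⟩
  · calc ((T.image f).card : ℝ) ≤ T.card := by exact_mod_cast Finset.card_image_le
      _ ≤ C * ((M * k : ℕ) : ℝ) ^ d := hT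
      _ = C * (k : ℝ) ^ d * (M : ℝ) ^ d := by push_cast; ring
  · rintro _ ⟨x, hx, rfl⟩
    have := hcov hx
    simp only [Set.mem_iUnion] at this ⊢
    obtain ⟨p, hp, hd⟩ := this
    refine ⟨f p, Finset.mem_image_of_mem f hp, ?_⟩
    rw [Metric.mem_closedBall] at hd ⊢
    calc dist (f x) (f p) ≤ K * dist x p := hf.dist_le_mul x hx p (hTS hp)
      _ ≤ K * (1 / ((M * k : ℕ) : ℝ)) := mul_le_mul_of_nonneg_left hd K.coe_nonneg
      _ ≤ k * (1 / ((M * k : ℕ) : ℝ)) := mul_le_mul_of_nonneg_right hk1 (by positivity)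
      _ = 1 / (M : ℝ) := by push_cast; field_simp

end Basic

section Cube

variable {κ : Type*} [Fintype κ]

/-- A face `{p ∈ [0,1]^κ | p j = ε}` of the unit cube has covering dimension `≤ card κ - 1`. -/
theorem coverBound_face (j : κ) (ε : ℝ) :
    CoverBound {p : κ → ℝ | (∀ i, p i ∈ Set.Icc (0 : ℝ) 1) ∧ p j = ε} (Fintype.card κ - 1) := by
  classical
  refine ⟨2 ^ (Fintype.card κ - 1), fun M hM => ?_⟩
  have hM' : (0 : ℝ) < M := by exact_mod_cast hM
  let G : κ → Finset ℝ := fun i =>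
    if i = j then {ε} else (Finset.range (M + 1)).image (fun k : ℕ => (k : ℝ) / M)
  refine ⟨Fintype.piFinset G, ?_, ?_⟩
  · rw [Fintype.card_piFinset]
    have h1 : ∀ i, (G i).card ≤ if i = j then 1 else M + 1 := by
      intro i
      by_cases hi : i = j
      · simp [G, hi]
      · simp only [G, hi, if_false]
        exact Finset.card_image_le.trans (by simp)
    have h2 : ∏ i, (G i).card ≤ ∏ i : κ, (if i = j then 1 else M + 1) :=
      Finset.prod_le_prod' (fun i _ => h1 i)
    have h3 : ∏ i : κ, (if i = j then 1 else M + 1) = (M + 1) ^ (Fintype.card κ - 1) := by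
      rw [Finset.prod_ite, Finset.prod_const_one, one_mul, Finset.prod_const]
      congr 1
      rw [Finset.filter_ne' Finset.univ j, Finset.card_erase_of_mem (Finset.mem_univ j),
        Finset.card_univ]
    calc ((∏ i, (G i).card : ℕ) : ℝ) ≤ (((M + 1) ^ (Fintype.card κ - 1) : ℕ) : ℝ) := by
          exact_mod_cast h2.trans_eq h3
      _ ≤ 2 ^ (Fintype.card κ - 1) * (M : ℝ) ^ (Fintype.card κ - 1) := by
          push_cast
          rw [← mul_pow]
          refine pow_le_pow_left₀ (by positivity) ?_ _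
          have : (1 : ℝ) ≤ M := by exact_mod_cast hM
          linarith
  · rintro p ⟨hp, hpj⟩
    simp only [Set.mem_iUnion]
    refine ⟨fun i => if i = j then ε else (⌊(M : ℝ) * p i⌋₊ : ℝ) / M, ?_, ?_⟩
    · rw [Fintype.mem_piFinset]
      intro i
      by_cases hi : i = j
      · simp [G, hi]
      · simp only [G, hi, if_false, Finset.mem_image, Finset.mem_range]
        refine ⟨⌊(M : ℝ) * p i⌋₊, ?_, rfl⟩
        have : (M : ℝ) * p i ≤ M := by
          calc (M : ℝ) * p i ≤ M * 1 := mul_le_mul_of_nonneg_left (hp i).2 hM'.le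
            _ = M := mul_one _
        have h2 : ⌊(M : ℝ) * p i⌋₊ ≤ M := by
          have := Nat.floor_le_floor this
          simpa using this
        omega
    · rw [Metric.mem_closedBall, dist_pi_le_iff (by positivity)]
      intro i
      by_cases hi : i = j
      · simp [hi, hpj]
      · simp only [hi, if_false]
        rw [Real.dist_eq]
        have h0 : 0 ≤ (M : ℝ) * p i := mul_nonneg hM'.le (hp i).1
        have h1 : (⌊(M : ℝ) * p i⌋₊ : ℝ) ≤ (M : ℝ) * p i := Nat.floor_le h0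
        have h2 : (M : ℝ) * p i < ⌊(M : ℝ) * p i⌋₊ + 1 := Nat.lt_floor_add_one _
        have e : p i - (⌊(M : ℝ) * p i⌋₊ : ℝ) / M = ((M : ℝ) * p i - ⌊(M : ℝ) * p i⌋₊) / M := by
          field_simp
        rw [e, abs_div, abs_of_pos hM', abs_of_nonneg (by linarith)]
        rw [div_le_div_iff_of_pos_right hM']
        linarith

end Cube

end Fermat.Agent.H67
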