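import Mathlib

/-!
# Integer points of subsets of `ι → ℝ` (sup norm)

Elementary counting of integer points in balls, used for lattice point counting with an
error term.
-/

set_option autoImplicit false

open Set Filter Topology Bornology

namespace Fermat.Agent.H67

variable {ι : Type*}

/-- an integer vector seen as a real vector -/
def intVec (z : ι → ℤ) : ι → ℝ := fun i => (z i : ℝ)

@[simp] theorem intVec_apply (z : ι → ℤ) (i : ι) : intVec z i = (z i : ℝ) := rfl

theorem intVec_injective : Function.Injective (intVec : (ι → ℤ) → ι → ℝ) := by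
  intro z w h
  funext i
  have := congrFun h i
  simpa using this

/-- the integer points of a set -/
def intPts (A : Set (ι → ℝ)) : Set (ι → ℤ) := {z | intVec z ∈ A}

@[simp] theorem mem_intPts {A : Set (ι → ℝ)} {z : ι → ℤ} : z ∈ intPts A ↔ intVec z ∈ A := Iff.rfl

theorem intPts_mono {A B : Set (ι → ℝ)} (h : A ⊆ B) : intPts A ⊆ intPts B := fun _ hz => h hz

variable [Fintype ι]

theorem intPts_closedBall_subset [DecidableEq ι] (p : ι → ℝ) (r : ℝ) :
    intPts (Metric.closedBall p r) ⊆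
      ↑(Fintype.piFinset fun i => Finset.Icc ⌈p i - r⌉ ⌊p i + r⌋) := by
  intro z hz
  rw [mem_intPts, Metric.mem_closedBall] at hz
  rw [Finset.mem_coe, Fintype.mem_piFinset]
  intro i
  have h1 : dist (intVec z i) (p i) ≤ r := (dist_le_pi_dist (intVec z) p i).trans hz
  rw [Real.dist_eq, abs_le, intVec_apply] at h1
  rw [Finset.mem_Icc]
  constructor
  · rw [Int.ceil_le]; linarith [h1.1]
  · rw [Int.le_floor]; linarith [h1.2]

theorem intPts_closedBall_finite (p : ι → ℝ) (r : ℝ) :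
    (intPts (Metric.closedBall p r)).Finite := by
  classical
  exact (Finset.finite_toSet _).subset (intPts_closedBall_subset p r)

theorem intPts_finite_of_isBounded {A : Set (ι → ℝ)} (hA : IsBounded A) : (intPts A).Finite := by
  obtain ⟨R, hR⟩ := hA.subset_closedBall (0 : ι → ℝ)
  exact (intPts_closedBall_finite 0 R).subset (intPts_mono hR)

theorem card_Icc_ceil_floor_le (a r : ℝ) (hr : 0 ≤ r) :
    ((Finset.Icc ⌈a - r⌉ ⌊a + r⌋).card : ℝ) ≤ 2 * r + 1 := by
  rw [Int.card_Icc]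
  have h1 : ((⌊a + r⌋ : ℤ) : ℝ) ≤ a + r := Int.floor_le _
  have h2 : a - r ≤ ((⌈a - r⌉ : ℤ) : ℝ) := Int.le_ceil _
  rcases le_or_gt 0 (⌊a + r⌋ + 1 - ⌈a - r⌉) with h | h
  · have : (((⌊a + r⌋ + 1 - ⌈a - r⌉).toNat : ℤ) : ℝ) = ((⌊a + r⌋ + 1 - ⌈a - r⌉ : ℤ) : ℝ) := by
      rw [Int.toNat_of_nonneg h]
    have h3 : (((⌊a + r⌋ + 1 - ⌈a - r⌉).toNat : ℕ) : ℝ) =
        (((⌊a + r⌋ + 1 - ⌈a - r⌉).toNat : ℤ) : ℝ) := by norm_cast
    rw [h3, this]
    push_cast
    linarith
  · rw [Int.toNat_of_nonpos h.le]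
    simp only [Nat.cast_zero]
    linarith

theorem ncard_intPts_closedBall_le (p : ι → ℝ) {r : ℝ} (hr : 0 ≤ r) :
    ((intPts (Metric.closedBall p r)).ncard : ℝ) ≤ (2 * r + 1) ^ Fintype.card ι := by
  classical
  have h1 : (intPts (Metric.closedBall p r)).ncard ≤
      (Fintype.piFinset fun i => Finset.Icc ⌈p i - r⌉ ⌊p i + r⌋).card := by
    rw [← Set.ncard_coe_finset]
    exact Set.ncard_le_ncard (intPts_closedBall_subset p r) (Finset.finite_toSet _)
  calc ((intPts (Metric.closedBall p r)).ncard : ℝ)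
      ≤ ((Fintype.piFinset fun i => Finset.Icc ⌈p i - r⌉ ⌊p i + r⌋).card : ℝ) := by
        exact_mod_cast h1
    _ = ∏ i : ι, ((Finset.Icc ⌈p i - r⌉ ⌊p i + r⌋).card : ℝ) := by
        rw [Fintype.card_piFinset]; push_cast; rfl
    _ ≤ ∏ _i : ι, (2 * r + 1) :=
        Finset.prod_le_prod (fun i _ => Nat.cast_nonneg _)
          (fun i _ => card_Icc_ceil_floor_le (p i) r hr)
    _ = (2 * r + 1) ^ Fintype.card ι := by
        rw [Finset.prod_const, Finset.card_univ]

end Fermat.Agent.H67
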