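import Mathlib
import Fermat.Agent.H67.Count.IntPts
import Fermat.Agent.H67.Count.CoverBound

/-!
# Lattice point counting with an error term, by doubling

If `D ⊆ ι → ℝ` is bounded and its frontier has a `(n-1)`-dimensional net bound (`n = card ι`),
then `c(t) = #(ℤ^ι ∩ t • D)` satisfies `|c(2t) - 2^n c(t)| ≤ β t^(n-1)`.  Hence if
`c(t) / t^n → κ`, then `|c(t) - κ t^n| ≤ 2 β t^(n-1)`.
-/

set_option autoImplicit false

open Set Filter Topology Bornology Pointwise

namespace Fermat.Agent.H67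

section Topology

variable {X : Type*} [TopologicalSpace X]

/-- a preconnected set meeting `A` and its complement meets the frontier of `A` -/
theorem IsPreconnected.inter_frontier_nonempty' {s A : Set X} (hs : IsPreconnected s)
    (h1 : (s ∩ A).Nonempty) (h2 : (s ∩ Aᶜ).Nonempty) : (s ∩ frontier A).Nonempty := by
  by_contra hcon
  rw [Set.not_nonempty_iff_eq_empty] at hcon
  have hcov : s ⊆ interior A ∪ (closure A)ᶜ := by
    intro x hx
    by_cases hxc : x ∈ closure A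
    · left
      by_contra hxi
      have : x ∈ s ∩ frontier A := ⟨hx, hxc, hxi⟩
      rw [hcon] at this
      exact this
    · right; exact hxc
  obtain ⟨x, hxs, hxA⟩ := h1
  obtain ⟨y, hys, hyA⟩ := h2
  have hx' : x ∈ interior A := by
    rcases hcov hxs with h | h
    · exact h
    · exact absurd (subset_closure hxA) h
  have hy' : y ∈ (closure A)ᶜ := by
    rcases hcov hys with h | h
    · exact absurd (interior_subset h) hyA
    · exact h
  obtain ⟨z, -, hz1, hz2⟩ := hs (interior A) (closure A)ᶜ isOpen_interior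
    isClosed_closure.isOpen_compl hcov ⟨x, hxs, hx'⟩ ⟨y, hys, hy'⟩
  exact hz2 (subset_closure (interior_subset hz1))

end Topology

section Shift

variable {ι : Type*} [Fintype ι]

/-- if exactly one of `y`, `y + v` lies in `A`, then `y` is within `‖v‖` of the frontier -/
theorem exists_frontier_near_of_mem_of_notMem {A : Set (ι → ℝ)} {y v : ι → ℝ}
    (h : (y ∈ A ∧ y + v ∉ A) ∨ (y ∉ A ∧ y + v ∈ A)) :
    ∃ x ∈ frontier A, dist y x ≤ ‖v‖ := by
  have hseg : IsPreconnected (segment ℝ y (y + v)) := (convex_segment y (y + v)).isPreconnected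
  have hl : y ∈ segment ℝ y (y + v) := left_mem_segment ℝ y (y + v)
  have hr : y + v ∈ segment ℝ y (y + v) := right_mem_segment ℝ y (y + v)
  have hne : (segment ℝ y (y + v) ∩ frontier A).Nonempty := by
    rcases h with ⟨h1, h2⟩ | ⟨h1, h2⟩
    · exact IsPreconnected.inter_frontier_nonempty' hseg ⟨y, hl, h1⟩ ⟨y + v, hr, h2⟩
    · exact IsPreconnected.inter_frontier_nonempty' hseg ⟨y + v, hr, h2⟩ ⟨y, hl, h1⟩
  obtain ⟨x, hxs, hxf⟩ := hne
  refine ⟨x, hxf, ?_⟩
  rw [segment_eq_image'] at hxs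
  obtain ⟨s, hs, rfl⟩ := hxs
  rw [dist_eq_norm]
  have : y - (y + s • (y + v - y)) = -(s • v) := by
    rw [add_sub_cancel_left]; abel
  rw [this, norm_neg, norm_smul, Real.norm_of_nonneg hs.1]
  calc s * ‖v‖ ≤ 1 * ‖v‖ := mul_le_mul_of_nonneg_right hs.2 (norm_nonneg v)
    _ = ‖v‖ := one_mul _

theorem isBounded_shift {A : Set (ι → ℝ)} (hA : IsBounded A) (v : ι → ℝ) :
    IsBounded {y : ι → ℝ | y + v ∈ A} := by
  have : {y : ι → ℝ | y + v ∈ A} = (fun y => y + (-v)) '' A := by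
    ext y
    simp only [Set.mem_ofPred_eq, Set.mem_image]
    constructor
    · intro h; exact ⟨y + v, h, by abel⟩
    · rintro ⟨x, hx, rfl⟩
      have : x + -v + v = x := by abel
      rwa [this]
  rw [this]
  exact (LipschitzWith.id.add (LipschitzWith.const (-v))).isBounded_image hA

/-- shifting by `v` changes the number of integer points by at most the number of integer points
near the frontier -/
theorem abs_ncard_shift_sub_le {A : Set (ι → ℝ)} (hA : IsBounded A) (v : ι → ℝ) {ρ : ℝ}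
    (hv : ‖v‖ ≤ ρ) (hfin : (intPts {y | ∃ x ∈ frontier A, dist y x ≤ ρ}).Finite) :
    |((intPts {y | y + v ∈ A}).ncard : ℝ) - ((intPts A).ncard : ℝ)| ≤
      ((intPts {y | ∃ x ∈ frontier A, dist y x ≤ ρ}).ncard : ℝ) := by
  set S₁ := intPts {y | y + v ∈ A}
  set S₀ := intPts A
  set Bd := intPts {y | ∃ x ∈ frontier A, dist y x ≤ ρ}
  have hS₁ : S₁.Finite := intPts_finite_of_isBounded (isBounded_shift hA v)
  have hS₀ : S₀.Finite := intPts_finite_of_isBounded hA
  have h10 : S₁ ⊆ S₀ ∪ Bd := by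
    intro z hz
    by_cases h : z ∈ S₀
    · exact Or.inl h
    · right
      obtain ⟨x, hx, hd⟩ := exists_frontier_near_of_mem_of_notMem (A := A) (y := intVec z) (v := v)
        (Or.inr ⟨h, hz⟩)
      exact ⟨x, hx, hd.trans hv⟩
  have h01 : S₀ ⊆ S₁ ∪ Bd := by
    intro z hz
    by_cases h : z ∈ S₁
    · exact Or.inl h
    · right
      obtain ⟨x, hx, hd⟩ := exists_frontier_near_of_mem_of_notMem (A := A) (y := intVec z) (v := v)
        (Or.inl ⟨hz, h⟩)
      exact ⟨x, hx, hd.trans hv⟩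
  have e10 : S₁.ncard ≤ S₀.ncard + Bd.ncard :=
    (Set.ncard_le_ncard h10 (hS₀.union hfin)).trans (Set.ncard_union_le _ _)
  have e01 : S₀.ncard ≤ S₁.ncard + Bd.ncard :=
    (Set.ncard_le_ncard h01 (hS₁.union hfin)).trans (Set.ncard_union_le _ _)
  have e10' : (S₁.ncard : ℝ) ≤ S₀.ncard + Bd.ncard := by exact_mod_cast e10
  have e01' : (S₀.ncard : ℝ) ≤ S₁.ncard + Bd.ncard := by exact_mod_cast e01
  rw [abs_le]
  constructor <;> linarith

end Shift

section NearCount

variable {ι : Type*} [Fintype ι]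

/-- Integer points within distance `ρ` of `t • S`, where `S` has a `d`-dimensional covering
bound: at most `O(t ^ d)`. -/
theorem ncard_intPts_near_smul_le {S : Set (ι → ℝ)} {d : ℕ} (hS : CoverBound S d) {ρ : ℝ}
    (hρ : 0 ≤ ρ) :
    ∃ C' : ℝ, 0 ≤ C' ∧ ∀ t : ℝ, 1 ≤ t →
      (intPts {y | ∃ x ∈ t • S, dist y x ≤ ρ}).Finite ∧
      ((intPts {y | ∃ x ∈ t • S, dist y x ≤ ρ}).ncard : ℝ) ≤ C' * t ^ d := by
  classical
  obtain ⟨C, hC⟩ := hS
  have hC0 : 0 ≤ C := by
    obtain ⟨T, hT, -⟩ := hC 1 one_pos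
    have : (0 : ℝ) ≤ C * ((1 : ℕ) : ℝ) ^ d := (Nat.cast_nonneg _).trans hT
    simpa using this
  refine ⟨C * 2 ^ d * (2 * (1 + ρ) + 1) ^ Fintype.card ι, by positivity, fun t ht => ?_⟩
  have ht0 : 0 < t := lt_of_lt_of_le one_pos ht
  have hN : 0 < ⌈t⌉₊ := Nat.ceil_pos.mpr ht0
  have hN' : (0 : ℝ) < (⌈t⌉₊ : ℝ) := by exact_mod_cast hN
  have htN : t ≤ (⌈t⌉₊ : ℝ) := Nat.le_ceil t
  have hN2 : (⌈t⌉₊ : ℝ) ≤ 2 * t := by
    have := (Nat.ceil_lt_add_one ht0.le).le
    linarith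
  obtain ⟨T, hT, hcov⟩ := hC ⌈t⌉₊ hN
  have hsub : intPts {y | ∃ x ∈ t • S, dist y x ≤ ρ} ⊆
      ⋃ p ∈ T, intPts (Metric.closedBall (t • p) (1 + ρ)) := by
    intro z hz
    obtain ⟨x, hx, hzx⟩ := hz
    obtain ⟨y, hy, rfl⟩ := hx
    have := hcov hy
    simp only [Set.mem_iUnion] at this ⊢
    obtain ⟨p, hp, hd⟩ := this
    refine ⟨p, hp, ?_⟩
    rw [Metric.mem_closedBall] at hd
    rw [mem_intPts, Metric.mem_closedBall]
    have h1 : dist (t • y) (t • p) ≤ 1 := by
      rw [dist_smul₀, Real.norm_of_nonneg ht0.le]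
      calc t * dist y p ≤ t * (1 / ⌈t⌉₊) := mul_le_mul_of_nonneg_left hd ht0.le
        _ = t / ⌈t⌉₊ := by ring
        _ ≤ 1 := (div_le_one hN').mpr htN
    calc dist (intVec z) (t • p) ≤ dist (intVec z) (t • y) + dist (t • y) (t • p) :=
          dist_triangle _ _ _
      _ ≤ ρ + 1 := add_le_add hzx h1
      _ = 1 + ρ := add_comm _ _
  have hfin : (⋃ p ∈ T, intPts (Metric.closedBall (t • p) (1 + ρ))).Finite :=
    Set.Finite.biUnion (Finset.finite_toSet T) (fun p _ => intPts_closedBall_finite _ _)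
  refine ⟨hfin.subset hsub, ?_⟩
  have h1 : (intPts {y | ∃ x ∈ t • S, dist y x ≤ ρ}).ncard ≤
      ∑ p ∈ T, (intPts (Metric.closedBall (t • p) (1 + ρ))).ncard :=
    (Set.ncard_le_ncard hsub hfin).trans (Finset.set_ncard_biUnion_le T _)
  have h2 : ((∑ p ∈ T, (intPts (Metric.closedBall (t • p) (1 + ρ))).ncard : ℕ) : ℝ) ≤
      T.card * (2 * (1 + ρ) + 1) ^ Fintype.card ι := by
    push_cast
    calc ∑ p ∈ T, ((intPts (Metric.closedBall (t • p) (1 + ρ))).ncard : ℝ)
        ≤ ∑ _p ∈ T, (2 * (1 + ρ) + 1) ^ Fintype.card ι :=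
          Finset.sum_le_sum (fun p _ => ncard_intPts_closedBall_le _ (by positivity))
      _ = T.card * (2 * (1 + ρ) + 1) ^ Fintype.card ι := by
          rw [Finset.sum_const, nsmul_eq_mul]
  have hpos : (0 : ℝ) ≤ (2 * (1 + ρ) + 1) ^ Fintype.card ι := by positivity
  calc ((intPts {y | ∃ x ∈ t • S, dist y x ≤ ρ}).ncard : ℝ)
      ≤ T.card * (2 * (1 + ρ) + 1) ^ Fintype.card ι := (by exact_mod_cast h1 : _ ≤ _).trans h2
    _ ≤ (C * (2 * t) ^ d) * (2 * (1 + ρ) + 1) ^ Fintype.card ι := by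
        refine mul_le_mul_of_nonneg_right ?_ hpos
        exact hT.trans (mul_le_mul_of_nonneg_left (pow_le_pow_left₀ hN'.le hN2 d) hC0)
    _ = C * 2 ^ d * (2 * (1 + ρ) + 1) ^ Fintype.card ι * t ^ d := by rw [mul_pow]; ring

end NearCount

section DoublingIdentity

variable {ι : Type*} [Fintype ι]

/-- the half-integer vector attached to a parity vector -/
noncomputable def halfVec (ε : ι → ZMod 2) : ι → ℝ := fun i => ((ε i).val : ℝ) / 2

theorem norm_halfVec_le (ε : ι → ZMod 2) : ‖halfVec ε‖ ≤ 1 / 2 := by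
  rw [pi_norm_le_iff_of_nonneg (by norm_num)]
  intro i
  have h1 : (ε i).val < 2 := ZMod.val_lt (ε i)
  have h2 : ((ε i).val : ℝ) ≤ 1 := by
    have : (ε i).val ≤ 1 := by omega
    exact_mod_cast this
  rw [halfVec, Real.norm_eq_abs, abs_of_nonneg (by positivity)]
  linarith

/-- the parity vector of an integer vector -/
def parVec (z : ι → ℤ) : ι → ZMod 2 := fun i => (z i : ZMod 2)

/-- the integer vector `2 z + ε` -/
def dblVec (ε : ι → ZMod 2) (z : ι → ℤ) : ι → ℤ := fun i => 2 * z i + ((ε i).val : ℤ)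

theorem dblVec_injective (ε : ι → ZMod 2) : Function.Injective (dblVec ε) := by
  intro z w h
  funext i
  have := congrFun h i
  simp only [dblVec] at this
  omega

theorem parVec_dblVec (ε : ι → ZMod 2) (z : ι → ℤ) : parVec (dblVec ε z) = ε := by
  funext i
  simp only [parVec, dblVec]
  push_cast
  have h2 : (2 : ZMod 2) = 0 := rfl
  rw [h2, zero_mul, zero_add, ZMod.natCast_zmod_val]

theorem intVec_dblVec (ε : ι → ZMod 2) (z : ι → ℤ) :
    intVec (dblVec ε z) = (2 : ℝ) • (intVec z + halfVec ε) := by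
  funext i
  simp only [intVec, dblVec, halfVec, Pi.smul_apply, Pi.add_apply, smul_eq_mul]
  push_cast
  ring

theorem exists_dblVec_of_parVec_eq {ε : ι → ZMod 2} {z : ι → ℤ} (h : parVec z = ε) :
    ∃ z', dblVec ε z' = z := by
  have hdvd : ∀ i, (2 : ℤ) ∣ z i - ((ε i).val : ℤ) := by
    intro i
    have hi : (z i : ZMod 2) = ε i := congrFun h i
    have : ((z i - ((ε i).val : ℤ) : ℤ) : ZMod 2) = 0 := by
      push_cast
      rw [ZMod.natCast_zmod_val, hi, sub_self]
    exact_mod_cast (ZMod.intCast_zmod_eq_zero_iff_dvd _ 2).mp this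
  choose k hk using hdvd
  refine ⟨k, ?_⟩
  funext i
  simp only [dblVec]
  have := hk i
  omega

/-- the fibre of `intPts (2 • A)` over a parity vector -/
theorem fibre_eq_image (A : Set (ι → ℝ)) (ε : ι → ZMod 2) :
    {z | z ∈ intPts ((2 : ℝ) • A) ∧ parVec z = ε} =
      dblVec ε '' intPts {y | y + halfVec ε ∈ A} := by
  ext z
  constructor
  · rintro ⟨hz, hpar⟩
    obtain ⟨z', rfl⟩ := exists_dblVec_of_parVec_eq hpar
    refine ⟨z', ?_, rfl⟩
    rw [mem_intPts, intVec_dblVec] at hz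
    rw [mem_intPts]
    exact (Set.smul_mem_smul_set_iff₀ (two_ne_zero : (2 : ℝ) ≠ 0) A
      (intVec z' + halfVec ε)).mp hz
  · rintro ⟨z', hz', rfl⟩
    refine ⟨?_, parVec_dblVec ε z'⟩
    rw [mem_intPts, intVec_dblVec]
    exact Set.smul_mem_smul_set hz'

theorem ncard_intPts_two_smul [DecidableEq ι] (A : Set (ι → ℝ)) (hA : IsBounded A) :
    (intPts ((2 : ℝ) • A)).ncard =
      ∑ ε : ι → ZMod 2, (intPts {y | y + halfVec ε ∈ A}).ncard := by
  have hfin : (intPts ((2 : ℝ) • A)).Finite := intPts_finite_of_isBounded (hA.smul₀ 2)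
  have h1 : (intPts ((2 : ℝ) • A)).ncard = hfin.toFinset.card :=
    Set.ncard_eq_toFinset_card _ hfin
  rw [h1, Finset.card_eq_sum_card_fiberwise (f := parVec) (t := Finset.univ)
    (fun _ _ => Finset.mem_univ _)]
  refine Finset.sum_congr rfl fun ε _ => ?_
  rw [← Set.ncard_image_of_injective _ (dblVec_injective ε), ← fibre_eq_image,
    ← Set.ncard_coe_finset]
  congr 1
  ext z
  simp

end DoublingIdentity

section DoublingBound

variable {ι : Type*} [Fintype ι]

theorem frontier_smul_set_of_ne_zero {E : Type*} [NormedAddCommGroup E] [NormedSpace ℝ E]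
    {t : ℝ} (ht : t ≠ 0) (D : Set E) : frontier (t • D) = t • frontier D := by
  have h := (Homeomorph.smulOfNeZero t ht).image_frontier D
  simp only [Homeomorph.smulOfNeZero_apply, Set.image_smul] at h
  exact h.symm

/-- **Doubling bound**: `|c(2t) - 2^n c(t)| ≤ β t^d` where `c(t) = #(ℤ^ι ∩ t • D)`, if the
frontier of the bounded set `D` has a `d`-dimensional covering bound. -/
theorem abs_ncard_two_mul_smul_sub_le [DecidableEq ι] {D : Set (ι → ℝ)} (hb : IsBounded D)
    {d : ℕ} (hc : CoverBound (frontier D) d) :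
    ∃ β : ℝ, 0 ≤ β ∧ ∀ t : ℝ, 1 ≤ t →
      |((intPts ((2 * t) • D)).ncard : ℝ) -
        2 ^ Fintype.card ι * ((intPts (t • D)).ncard : ℝ)| ≤ β * t ^ d := by
  obtain ⟨C', hC'0, hC'⟩ := ncard_intPts_near_smul_le hc (ρ := 1 / 2) (by norm_num)
  refine ⟨2 ^ Fintype.card ι * C', by positivity, fun t ht => ?_⟩
  have ht0 : t ≠ 0 := (lt_of_lt_of_le one_pos ht).ne'
  obtain ⟨hfin, hle⟩ := hC' t ht
  rw [← frontier_smul_set_of_ne_zero ht0] at hfin hle
  have hA : IsBounded (t • D) := hb.smul₀ t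
  have e1 : (2 * t) • D = (2 : ℝ) • (t • D) := by rw [smul_smul]
  rw [e1, ncard_intPts_two_smul _ hA]
  have hcard : (Fintype.card (ι → ZMod 2) : ℝ) = 2 ^ Fintype.card ι := by
    rw [Fintype.card_fun, ZMod.card]; push_cast; rfl
  have e2 : ((∑ ε : ι → ZMod 2, (intPts {y | y + halfVec ε ∈ t • D}).ncard : ℕ) : ℝ) -
      2 ^ Fintype.card ι * ((intPts (t • D)).ncard : ℝ) =
      ∑ ε : ι → ZMod 2, (((intPts {y | y + halfVec ε ∈ t • D}).ncard : ℝ) -
        ((intPts (t • D)).ncard : ℝ)) := by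
    rw [Finset.sum_sub_distrib, Finset.sum_const, Finset.card_univ, nsmul_eq_mul, hcard]
    push_cast
    rfl
  rw [e2]
  calc |∑ ε : ι → ZMod 2, (((intPts {y | y + halfVec ε ∈ t • D}).ncard : ℝ) -
        ((intPts (t • D)).ncard : ℝ))|
      ≤ ∑ ε : ι → ZMod 2, |((intPts {y | y + halfVec ε ∈ t • D}).ncard : ℝ) -
        ((intPts (t • D)).ncard : ℝ)| := Finset.abs_sum_le_sum_abs _ _
    _ ≤ ∑ _ε : ι → ZMod 2, C' * t ^ d :=
        Finset.sum_le_sum (fun ε _ =>
          (abs_ncard_shift_sub_le hA (halfVec ε) (norm_halfVec_le ε) hfin).trans hle)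
    _ = 2 ^ Fintype.card ι * C' * t ^ d := by
        rw [Finset.sum_const, Finset.card_univ, nsmul_eq_mul, hcard]; ring

/-- **From doubling to an error term** (abstract). -/
theorem abs_sub_le_of_doubling {a : ℝ → ℝ} {κ β : ℝ}
    (h : ∀ t : ℝ, 1 ≤ t → |a (2 * t) - a t| ≤ β / t)
    (hlim : ∀ t : ℝ, 1 ≤ t → Tendsto (fun k : ℕ => a (2 ^ k * t)) atTop (𝓝 κ)) :
    ∀ t : ℝ, 1 ≤ t → |κ - a t| ≤ 2 * β / t := by
  intro t ht
  have ht0 : 0 < t := lt_of_lt_of_le one_pos ht
  have key : ∀ k : ℕ, |a (2 ^ k * t) - a t| ≤ (2 * β / t) * (1 - (1 / 2) ^ k) := by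
    intro k
    induction k with
    | zero => simp
    | succ k ih =>
      have hs : (1 : ℝ) ≤ 2 ^ k * t := by
        calc (1 : ℝ) = 1 * 1 := (one_mul 1).symm
          _ ≤ 2 ^ k * t := mul_le_mul (one_le_pow₀ (by norm_num)) ht (by norm_num)
              (by positivity)
      have h1 := h (2 ^ k * t) hs
      have e : (2 : ℝ) ^ (k + 1) * t = 2 * (2 ^ k * t) := by ring
      have e2 : β / (2 ^ k * t) = (β / t) * (1 / 2) ^ k := by
        rw [one_div, inv_pow]
        field_simp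
      rw [e]
      calc |a (2 * (2 ^ k * t)) - a t|
          = |(a (2 * (2 ^ k * t)) - a (2 ^ k * t)) + (a (2 ^ k * t) - a t)| := by ring_nf
        _ ≤ |a (2 * (2 ^ k * t)) - a (2 ^ k * t)| + |a (2 ^ k * t) - a t| := abs_add_le _ _
        _ ≤ β / (2 ^ k * t) + (2 * β / t) * (1 - (1 / 2) ^ k) := add_le_add h1 ih
        _ = (2 * β / t) * (1 - (1 / 2) ^ (k + 1)) := by rw [e2]; ring
  have hβ : 0 ≤ β := by
    have := (abs_nonneg _).trans (h 1 le_rfl)
    simpa using this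
  have key2 : ∀ k : ℕ, |a (2 ^ k * t) - a t| ≤ 2 * β / t := by
    intro k
    refine (key k).trans ?_
    have h1 : (0 : ℝ) ≤ (1 / 2) ^ k := by positivity
    have h2 : 0 ≤ 2 * β / t := by positivity
    nlinarith
  have hl : Tendsto (fun k : ℕ => |a (2 ^ k * t) - a t|) atTop (𝓝 |κ - a t|) :=
    ((hlim t ht).sub tendsto_const_nhds).abs
  exact le_of_tendsto' hl key2

end DoublingBound

end Fermat.Agent.H67
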