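import Mathlib
import Fermat.Agent.H67.Count.Doubling

/-!
# Lattice point counting with an error term

For a `ℤ`-lattice `L` in a finite dimensional real inner product space `E` and a bounded
measurable set `D` whose frontier has covering dimension `≤ dim E - 1`:
`|#(t • D ∩ L) - vol(D) / covol(L) * t ^ n| ≤ B * t ^ (n - 1)` for `t ≥ 1`.
-/

set_option autoImplicit false

open Set Filter Topology Bornology Pointwise MeasureTheory Module

namespace Fermat.Agent.H67

section Coordinates

variable {E : Type*} [NormedAddCommGroup E] [NormedSpace ℝ E] [FiniteDimensional ℝ E]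
variable (L : Submodule ℤ E) [DiscreteTopology L] [IsZLattice ℝ L]
variable {ι : Type*} [Fintype ι] (b : Basis ι ℤ L)

/-- the coordinate isomorphism attached to a `ℤ`-basis of the lattice -/
noncomputable def latticeCoord : E ≃L[ℝ] (ι → ℝ) := (b.ofZLatticeBasis ℝ L).equivFunL

theorem mem_lattice_iff_latticeCoord (x : E) :
    x ∈ L ↔ latticeCoord L b x ∈ Set.range (intVec : (ι → ℤ) → ι → ℝ) := by
  have h0 : x ∈ L ↔ x ∈ Submodule.span ℤ (Set.range (b.ofZLatticeBasis ℝ L)) := by
    rw [b.ofZLatticeBasis_span ℝ L]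
  rw [h0, Basis.mem_span_iff_repr_mem ℤ (b.ofZLatticeBasis ℝ L) x]
  constructor
  · intro h
    choose z hz using h
    refine ⟨z, ?_⟩
    funext i
    rw [intVec_apply, latticeCoord, Basis.equivFunL_apply, ← hz i]
    rfl
  · rintro ⟨z, hz⟩ i
    refine ⟨z i, ?_⟩
    have := congrFun hz i
    rw [intVec_apply, latticeCoord, Basis.equivFunL_apply] at this
    rw [← this]
    rfl

/-- counting lattice points of `A` = counting integer points of the image of `A` -/
theorem natCard_inter_lattice_eq (A : Set E) :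
    Nat.card ↥(A ∩ (L : Set E) : Set E) = (intPts (latticeCoord L b '' A)).ncard := by
  rw [Nat.card_coe_set_eq, ← Set.ncard_image_of_injective _ (latticeCoord L b).injective,
    ← Set.ncard_image_of_injective (intPts (latticeCoord L b '' A)) intVec_injective]
  congr 1
  ext y
  constructor
  · rintro ⟨x, ⟨hxA, hxL⟩, rfl⟩
    obtain ⟨z, hz⟩ := (mem_lattice_iff_latticeCoord L b x).mp hxL
    refine ⟨z, ?_, hz⟩
    rw [mem_intPts, hz]
    exact ⟨x, hxA, rfl⟩
  · rintro ⟨z, hz, rfl⟩
    obtain ⟨x, hxA, hx⟩ := hz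
    refine ⟨x, ⟨hxA, ?_⟩, hx⟩
    exact (mem_lattice_iff_latticeCoord L b x).mpr ⟨z, hx.symm⟩

end Coordinates

section Main

variable {E : Type*} [NormedAddCommGroup E] [InnerProductSpace ℝ E] [FiniteDimensional ℝ E]
  [MeasurableSpace E] [BorelSpace E]
variable (L : Submodule ℤ E) [DiscreteTopology L] [IsZLattice ℝ L]

omit [MeasurableSpace E] [BorelSpace E] [DiscreteTopology L] [IsZLattice ℝ L]
  [FiniteDimensional ℝ E] in
/-- rescaling the lattice is rescaling the set -/
theorem natCard_smul_inter_inv_smul (D : Set E) (t : ℝ) {n : ℕ} (hn : 0 < n) :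
    Nat.card ↥((t • D) ∩ (n : ℝ)⁻¹ • (L : Set E) : Set E) =
      Nat.card ↥((((n : ℝ) * t) • D) ∩ (L : Set E) : Set E) := by
  have hn' : (n : ℝ) ≠ 0 := by positivity
  have h : (((n : ℝ) * t) • D) ∩ (L : Set E) =
      (fun x : E => (n : ℝ) • x) '' ((t • D) ∩ (n : ℝ)⁻¹ • (L : Set E)) := by
    rw [Set.image_smul, smul_set_inter₀ hn', smul_smul, smul_smul, mul_inv_cancel₀ hn', one_smul]
  rw [h]
  exact (Nat.card_image_of_injective (smul_right_injective E hn') _).symm

theorem volume_real_smul_set (D : Set E) {t : ℝ} (ht : 0 ≤ t) :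
    volume.real (t • D) = t ^ finrank ℝ E * volume.real D := by
  rw [measureReal_def, measureReal_def, Measure.addHaar_smul, ENNReal.toReal_mul,
    ENNReal.toReal_ofReal (abs_nonneg _), abs_of_nonneg (pow_nonneg ht _)]

/-- **Lattice point counting with an error term** (assuming the frontier is a null set). -/
theorem latticeCount_of_frontier_null {D : Set E} (hb : IsBounded D) (hm : MeasurableSet D)
    (hf : volume (frontier D) = 0) (hc : CoverBound (frontier D) (finrank ℝ E - 1))
    (hpos : 0 < finrank ℝ E) :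
    ∃ B : ℝ, ∀ t : ℝ, 1 ≤ t →
      |(Nat.card ↥((t • D) ∩ (L : Set E) : Set E) : ℝ) -
        volume.real D / ZLattice.covolume L * t ^ finrank ℝ E| ≤ B * t ^ (finrank ℝ E - 1) := by
  classical
  set b := Free.chooseBasis ℤ L with hbdef
  have hcard : Fintype.card (Free.ChooseBasisIndex ℤ L) = finrank ℝ E := by
    rw [← finrank_eq_card_chooseBasisIndex, ZLattice.rank ℝ L]
  set e := latticeCoord L b with he
  have hb' : IsBounded (e '' D) := e.lipschitz.isBounded_image hb
  have hfr : frontier (e '' D) = e '' frontier D := (e.toHomeomorph.image_frontier D).symm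
  have hc' : CoverBound (frontier (e '' D)) (Fintype.card (Free.ChooseBasisIndex ℤ L) - 1) := by
    rw [hfr, hcard]
    exact hc.image e.lipschitz.lipschitzOnWith
  obtain ⟨β, hβ0, hβ⟩ := abs_ncard_two_mul_smul_sub_le hb' hc'
  have hct : ∀ t : ℝ, (Nat.card ↥((t • D) ∩ (L : Set E) : Set E) : ℝ) =
      ((intPts (t • (e '' D))).ncard : ℝ) := by
    intro t
    rw [natCard_inter_lattice_eq L b, image_smul_set]
  set n := finrank ℝ E with hn
  set κ := volume.real D / ZLattice.covolume L with hκ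
  -- the normalised counting function
  set a : ℝ → ℝ := fun t => (Nat.card ↥((t • D) ∩ (L : Set E) : Set E) : ℝ) / t ^ n with ha
  have h1 : ∀ t : ℝ, 1 ≤ t → |a (2 * t) - a t| ≤ β / t := by
    intro t ht
    have ht0 : 0 < t := lt_of_lt_of_le one_pos ht
    have hβt := hβ t ht
    rw [hcard, ← hct, ← hct] at hβt
    have e1 : a (2 * t) - a t =
        ((Nat.card ↥(((2 * t) • D) ∩ (L : Set E) : Set E) : ℝ) -
          2 ^ n * (Nat.card ↥((t • D) ∩ (L : Set E) : Set E) : ℝ)) / (2 * t) ^ n := by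
      simp only [ha]
      rw [mul_pow]
      field_simp
    rw [e1, abs_div, abs_of_pos (by positivity : (0 : ℝ) < (2 * t) ^ n)]
    rw [div_le_div_iff₀ (by positivity) ht0]
    have h2n : (1 : ℝ) ≤ 2 ^ n := one_le_pow₀ (by norm_num)
    have htn : t ^ (n - 1) * t = t ^ n := by
      rw [← pow_succ, Nat.sub_add_cancel hpos]
    calc |(Nat.card ↥(((2 * t) • D) ∩ (L : Set E) : Set E) : ℝ) -
          2 ^ n * (Nat.card ↥((t • D) ∩ (L : Set E) : Set E) : ℝ)| * t
        ≤ (β * t ^ (n - 1)) * t := mul_le_mul_of_nonneg_right hβt ht0.le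
      _ = β * t ^ n := by rw [mul_assoc, htn]
      _ ≤ β * (2 ^ n * t ^ n) := by
          refine mul_le_mul_of_nonneg_left ?_ hβ0
          calc t ^ n = 1 * t ^ n := (one_mul _).symm
            _ ≤ 2 ^ n * t ^ n := mul_le_mul_of_nonneg_right h2n (by positivity)
      _ = β * (2 * t) ^ n := by rw [mul_pow]
  have h2 : ∀ t : ℝ, 1 ≤ t → Tendsto (fun k : ℕ => a (2 ^ k * t)) atTop (𝓝 κ) := by
    intro t ht
    have ht0 : 0 < t := lt_of_lt_of_le one_pos ht
    have hs₁ : IsBounded (t • D) := hb.smul₀ t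
    have hs₂ : MeasurableSet (t • D) := hm.const_smul₀ t
    have hs₃ : volume (frontier (t • D)) = 0 := by
      rw [frontier_smul_set_of_ne_zero ht0.ne', Measure.addHaar_smul, hf, mul_zero]
    have T := (ZLattice.covolume.tendsto_card_div_pow' L hs₁ hs₂ hs₃).comp
      (tendsto_pow_atTop_atTop_of_one_lt (by norm_num : (1 : ℕ) < 2))
    have T2 := T.div_const (t ^ n)
    have hlim : volume.real (t • D) / ZLattice.covolume L / t ^ n = κ := by
      rw [volume_real_smul_set D ht0.le, hκ, ← hn]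
      field_simp
    rw [hlim] at T2
    refine T2.congr fun k => ?_
    simp only [Function.comp_apply, ha]
    rw [natCard_smul_inter_inv_smul L D t (pow_pos (by norm_num) k)]
    push_cast
    rw [mul_pow, div_div]
  have h3 := abs_sub_le_of_doubling h1 h2
  refine ⟨2 * β, fun t ht => ?_⟩
  have ht0 : 0 < t := lt_of_lt_of_le one_pos ht
  have h4 := h3 t ht
  have htn : t ^ (n - 1) * t = t ^ n := by
    rw [← pow_succ, Nat.sub_add_cancel hpos]
  have e2 : (Nat.card ↥((t • D) ∩ (L : Set E) : Set E) : ℝ) - κ * t ^ n =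
      -((κ - a t) * t ^ n) := by
    simp only [ha]
    field_simp
    ring
  rw [e2, abs_neg, abs_mul, abs_of_pos (by positivity : (0 : ℝ) < t ^ n)]
  calc |κ - a t| * t ^ n ≤ (2 * β / t) * t ^ n :=
        mul_le_mul_of_nonneg_right h4 (by positivity)
    _ = 2 * β * t ^ (n - 1) := by
        rw [← htn]; field_simp

omit [DiscreteTopology L] [IsZLattice ℝ L] in
/-- a set of covering dimension `< dim E` is a null set -/
theorem volume_eq_zero_of_coverBound {S : Set E} {d : ℕ} (h : CoverBound S d)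
    (hd : d < finrank ℝ E) : volume S = 0 := by
  obtain ⟨C, hC⟩ := h
  have hC0 : 0 ≤ C := by
    obtain ⟨T, hT, -⟩ := hC 1 one_pos
    have : (0 : ℝ) ≤ C * ((1 : ℕ) : ℝ) ^ d := (Nat.cast_nonneg _).trans hT
    simpa using this
  set v₁ := volume (Metric.ball (0 : E) 1) with hv₁
  have hv₁fin : v₁ ≠ ⊤ := (measure_ball_lt_top (μ := volume) (x := (0 : E)) (r := 1)).ne
  have hbound : ∀ M : ℕ, volume S ≤ ENNReal.ofReal (C / ((M : ℝ) + 1)) * v₁ := by
    intro M
    have hM : (0 : ℝ) < (M : ℝ) + 1 := by positivity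
    obtain ⟨T, hT, hcov⟩ := hC (M + 1) (Nat.succ_pos M)
    have hr : (0 : ℝ) ≤ 1 / ((M + 1 : ℕ) : ℝ) := by positivity
    calc volume S ≤ volume (⋃ x ∈ T, Metric.closedBall x (1 / ((M + 1 : ℕ) : ℝ))) :=
          measure_mono hcov
      _ ≤ ∑ x ∈ T, volume (Metric.closedBall x (1 / ((M + 1 : ℕ) : ℝ))) :=
          measure_biUnion_finset_le T _
      _ = ∑ _x ∈ T, ENNReal.ofReal ((1 / ((M + 1 : ℕ) : ℝ)) ^ finrank ℝ E) * v₁ := by
          refine Finset.sum_congr rfl fun x _ => ?_
          rw [Measure.addHaar_closedBall volume x hr]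
      _ = ENNReal.ofReal (T.card * (1 / ((M + 1 : ℕ) : ℝ)) ^ finrank ℝ E) * v₁ := by
          rw [Finset.sum_const, nsmul_eq_mul, ENNReal.ofReal_mul (Nat.cast_nonneg _),
            ENNReal.ofReal_natCast, mul_assoc]
      _ ≤ ENNReal.ofReal (C / ((M : ℝ) + 1)) * v₁ := by
          refine mul_le_mul_left ?_ v₁
          refine ENNReal.ofReal_le_ofReal ?_
          push_cast
          push_cast at hT
          have hpow : ((M : ℝ) + 1) ^ d * (1 / ((M : ℝ) + 1)) ^ finrank ℝ E ≤
              1 / ((M : ℝ) + 1) := by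
            obtain ⟨k, hk⟩ := Nat.exists_eq_add_of_lt hd
            have h1 : (1 : ℝ) ≤ ((M : ℝ) + 1) ^ k := one_le_pow₀ (by linarith)
            have hd0 : (0 : ℝ) < ((M : ℝ) + 1) ^ d := by positivity
            have hk0 : (0 : ℝ) < ((M : ℝ) + 1) ^ k := by positivity
            have e : ((M : ℝ) + 1) ^ d * (1 / ((M : ℝ) + 1)) ^ finrank ℝ E =
                1 / (((M : ℝ) + 1) ^ k * ((M : ℝ) + 1)) := by
              rw [hk, one_div, inv_pow, pow_succ, pow_add]
              field_simp
            rw [e]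
            apply one_div_le_one_div_of_le hM
            calc (M : ℝ) + 1 = 1 * ((M : ℝ) + 1) := (one_mul _).symm
              _ ≤ ((M : ℝ) + 1) ^ k * ((M : ℝ) + 1) :=
                  mul_le_mul_of_nonneg_right h1 hM.le
          calc (T.card : ℝ) * (1 / ((M : ℝ) + 1)) ^ finrank ℝ E
              ≤ (C * ((M : ℝ) + 1) ^ d) * (1 / ((M : ℝ) + 1)) ^ finrank ℝ E :=
                mul_le_mul_of_nonneg_right hT (by positivity)
            _ = C * (((M : ℝ) + 1) ^ d * (1 / ((M : ℝ) + 1)) ^ finrank ℝ E) := by ring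
            _ ≤ C * (1 / ((M : ℝ) + 1)) := mul_le_mul_of_nonneg_left hpow hC0
            _ = C / ((M : ℝ) + 1) := by ring
  have hlim : Tendsto (fun M : ℕ => ENNReal.ofReal (C / ((M : ℝ) + 1)) * v₁) atTop (𝓝 0) := by
    have h1 : Tendsto (fun M : ℕ => C / ((M : ℝ) + 1)) atTop (𝓝 0) :=
      tendsto_const_div_atTop_nhds_zero_nat C |>.comp (tendsto_add_atTop_nat 1) |>.congr
        (fun M => by simp)
    have h2 := ENNReal.tendsto_ofReal h1
    rw [ENNReal.ofReal_zero] at h2
    have h3 := ENNReal.Tendsto.mul_const h2 (Or.inr hv₁fin)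
    rwa [zero_mul] at h3
  exact le_antisymm (ge_of_tendsto' hlim hbound) zero_le

/-- **Lattice point counting with an error term.** -/
theorem latticeCount {D : Set E} (hb : IsBounded D) (hm : MeasurableSet D)
    (hc : CoverBound (frontier D) (finrank ℝ E - 1)) :
    ∃ B : ℝ, ∀ t : ℝ, 1 ≤ t →
      |(Nat.card ↥((t • D) ∩ (L : Set E) : Set E) : ℝ) -
        volume.real D / ZLattice.covolume L * t ^ finrank ℝ E| ≤ B * t ^ (finrank ℝ E - 1) := by
  rcases Nat.eq_zero_or_pos (finrank ℝ E) with h0 | hpos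
  · -- trivial space
    haveI : Subsingleton E := Module.finrank_zero_iff.mp h0
    refine ⟨1 + |volume.real D / ZLattice.covolume L|, fun t _ => ?_⟩
    rw [h0]
    simp only [pow_zero, mul_one, Nat.zero_sub]
    have hle : (Nat.card ↥((t • D) ∩ (L : Set E) : Set E) : ℝ) ≤ 1 := by
      have : Nat.card ↥((t • D) ∩ (L : Set E) : Set E) ≤ 1 :=
        Finite.card_le_one_iff_subsingleton.mpr inferInstance
      exact_mod_cast this
    have hge : (0 : ℝ) ≤ (Nat.card ↥((t • D) ∩ (L : Set E) : Set E) : ℝ) := Nat.cast_nonneg _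
    calc |(Nat.card ↥((t • D) ∩ (L : Set E) : Set E) : ℝ) - volume.real D / ZLattice.covolume L|
        ≤ |(Nat.card ↥((t • D) ∩ (L : Set E) : Set E) : ℝ)| +
          |volume.real D / ZLattice.covolume L| := abs_sub _ _
      _ ≤ 1 + |volume.real D / ZLattice.covolume L| := by
          rw [abs_of_nonneg hge]; linarith
  · exact latticeCount_of_frontier_null L hb hm
      (volume_eq_zero_of_coverBound hc (Nat.sub_lt hpos one_pos)) hc hpos

end Main

end Fermat.Agent.H67
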